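import Fermat.Agent.StammeringFractions.Main

/-!
# The complexity of the partial quotients of algebraic numbers

Linearly many factors force the partial quotients to be bounded and to repeat early, so an algebraic
number of degree at least three has more, and automatic continued fractions are quadratic or
transcendental.
-/

set_option autoImplicit false

noncomputable section

namespace FA.StammeringFractions

open Finset FA.PeriodicFractions FA.DigitComplexity

variable {x : ℝ}

/-- **Bugeaud's theorem**: the complexity of the partial quotients. -/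
theorem complexity_of_algebraic (hx : Irrational x) (halg : IsAlgebraic ℚ x)
    (hnq : ¬IsQuadraticIrrational x) (C : ℕ) :
    ∃ M, ∀ m, M ≤ m → (factors (fun n => digit x (n + 1)) m).Finite →
      C * m < (factors (fun n => digit x (n + 1)) m).ncard := by
  classical
  by_contra! h
  set a := fun n => digit x (n + 1)
  obtain ⟨m₁, hm₁, hfin, -⟩ := h 1
  obtain ⟨B, hB⟩ := (hfin.image fun w => w ⟨0, by omega⟩).bddAbove
  have hd : ∀ n, digit x (n + 1) ≤ B := fun n =>
    hB ⟨fun t => a (n + t), ⟨n, rfl⟩, by simp [a]⟩
  suffices hrep : ∀ M, ∃ m i j, M ≤ m ∧ i < j ∧ j ≤ C * m ∧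
      ∀ t, t < m → digit x (i + t + 1) = digit x (j + t + 1) by
    rcases quadratic_or_transcendental hx hd hrep with h1 | h1
    · exact hnq h1
    · exact h1 halg
  intro M
  obtain ⟨m, hm, hmfin, hcard⟩ := h M
  rw [Set.ncard_eq_toFinset_card _ hmfin] at hcard
  obtain ⟨i, hi, j, hj, hne, heq⟩ := exists_ne_map_eq_of_card_lt_of_maps_to
    (s := range (C * m + 1)) (t := hmfin.toFinset)
    (by rw [card_range]; exact Nat.lt_succ_of_le hcard)
    (f := fun i (t : Fin m) => a (i + t)) fun i _ => (Set.Finite.mem_toFinset _).2 ⟨i, rfl⟩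
  rw [mem_range] at hi hj
  have hw : ∀ t < m, a (i + t) = a (j + t) := fun t ht => congrFun heq ⟨t, ht⟩
  rcases lt_or_gt_of_ne hne with h' | h'
  · exact ⟨m, i, j, hm, h', by omega, hw⟩
  · exact ⟨m, j, i, hm, h', by omega, fun t ht => (hw t ht).symm⟩

/-- **Automatic continued fractions are quadratic or transcendental.** -/
theorem quadratic_or_transcendental_of_kern (hx : Irrational x) {k : ℕ} (hk : 2 ≤ k)
    (ha : (Cobham.kern k fun n => digit x (n + 1)).Finite) :
    IsQuadraticIrrational x ∨ Transcendental ℚ x := by
  by_contra! h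
  obtain ⟨C, hC⟩ := complexity_le_of_kern hk ha
  obtain ⟨M, hM⟩ := complexity_of_algebraic hx (not_not.1 h.2) h.1 C
  exact absurd (hC (M + 1) (Nat.le_add_left 1 M))
    (not_le.2 (hM (M + 1) (Nat.le_succ M) (finite_factors (finite_range_of_kern hk ha) _)))

end FA.StammeringFractions

end
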