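import Fermat.Agent.PalindromicFractions.Main

/-!
# Continuants at repeated windows

If the digits after two indices `r < N` agree for a long time, the complete quotients there are
close, so the quadratic form of the period is very small at `x`.
-/

set_option autoImplicit false

noncomputable section

namespace FA.StammeringFractions

open FA.PeriodicFractions

variable {x : ℝ}

/-- The numerator. -/
def num (x : ℝ) (n : ℕ) : ℤ := (contin x n).1

/-- The numerator before. -/
def numPrev (x : ℝ) (n : ℕ) : ℤ := (contin x n).2.1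

/-- The denominator. -/
def den (x : ℝ) (n : ℕ) : ℤ := (contin x n).2.2.1

/-- The denominator before. -/
def denPrev (x : ℝ) (n : ℕ) : ℤ := (contin x n).2.2.2

/-- The error of the convergent. -/
def err (x : ℝ) (n : ℕ) : ℝ := den x n * x - num x n

/-- The error of the convergent before. -/
def errPrev (x : ℝ) (n : ℕ) : ℝ := denPrev x n * x - numPrev x n

theorem den_succ (n : ℕ) : den x (n + 1) = den x n * digit x n + denPrev x n := rfl

theorem denPrev_succ (n : ℕ) : denPrev x (n + 1) = den x n := rfl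

theorem det_eq (hx : Irrational x) (n : ℕ) :
    |num x n * denPrev x n - numPrev x n * den x n| = 1 := by
  obtain ⟨p, p', q, q', he, -, hd, -, -⟩ := contin_spec hx n
  simpa [num, numPrev, den, denPrev, he] using hd

theorem den_bounds (hx : Irrational x) {n : ℕ} (hn : 1 ≤ n) :
    1 ≤ den x n ∧ 0 ≤ denPrev x n ∧ denPrev x n ≤ den x n := by
  obtain ⟨p, p', q, q', he, -, -, h0, hq⟩ := contin_spec hx n
  obtain ⟨h1, h2⟩ := hq.resolve_left (by omega)
  simp only [den, denPrev, he]
  exact ⟨h1, h0, h2⟩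

theorem errPrev_eq (hx : Irrational x) (n : ℕ) : errPrev x n = -cq x n * err x n := by
  obtain ⟨p, p', q, q', he, hrel, -, -, -⟩ := contin_spec hx n
  simp only [errPrev, err, num, numPrev, den, denPrev, he]
  linear_combination hrel

theorem err_ne_zero (hx : Irrational x) {n : ℕ} (hn : 1 ≤ n) : err x n ≠ 0 := fun h => by
  refine hx.ne_rational (num x n) (den x n) ?_
  rw [eq_div_iff (Int.cast_ne_zero.2 (by have := (den_bounds hx hn).1; omega))]
  simp only [err] at h
  linarith

theorem abs_err_le (hx : Irrational x) {n : ℕ} (hn : 1 ≤ n) :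
    |err x n| ≤ 1 / den x n ∧ |errPrev x n| ≤ 1 / den x n := by
  obtain ⟨h1, h0, h2⟩ := den_bounds hx hn
  obtain ⟨m, rfl⟩ : ∃ m, n = m + 1 := ⟨n - 1, by omega⟩
  have hc := one_lt_cq hx m
  have hd := det_eq hx (m + 1)
  have hq : (0 : ℝ) < den x (m + 1) := by exact_mod_cast (show 0 < den x (m + 1) by omega)
  have hq' : (0 : ℝ) ≤ denPrev x (m + 1) := by exact_mod_cast h0
  have key : |err x (m + 1)| * (den x (m + 1) * cq x (m + 1) + denPrev x (m + 1)) = 1 := by
    rw [← abs_of_pos (show (0 : ℝ) < den x (m + 1) * cq x (m + 1) + denPrev x (m + 1) by positivity),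
      ← abs_mul, show err x (m + 1) * (den x (m + 1) * cq x (m + 1) + denPrev x (m + 1)) =
        ((-(num x (m + 1) * denPrev x (m + 1) - numPrev x (m + 1) * den x (m + 1)) : ℤ) : ℝ) by
      have h := errPrev_eq hx (m + 1)
      simp only [err, errPrev] at h ⊢
      push_cast
      linear_combination (den x (m + 1) : ℝ) * h]
    rw [← Int.cast_abs, abs_neg, hd, Int.cast_one]
  constructor
  · rw [le_div_iff₀ hq]
    refine (mul_le_mul_of_nonneg_left ?_ (abs_nonneg _)).trans key.le
    nlinarith
  · rw [errPrev_eq hx, abs_mul, abs_neg, abs_of_pos (zero_lt_one.trans hc), le_div_iff₀ hq]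
    calc cq x (m + 1) * |err x (m + 1)| * den x (m + 1)
        = |err x (m + 1)| * (den x (m + 1) * cq x (m + 1)) := by ring
      _ ≤ |err x (m + 1)| * (den x (m + 1) * cq x (m + 1) + denPrev x (m + 1)) :=
          mul_le_mul_of_nonneg_left (le_add_of_nonneg_right hq') (abs_nonneg _)
      _ = 1 := key

theorem abs_num_le (hx : Irrational x) {n : ℕ} (hn : 1 ≤ n) :
    |(num x n : ℝ)| ≤ (|x| + 1) * den x n ∧ |(numPrev x n : ℝ)| ≤ (|x| + 1) * den x n := by
  obtain ⟨h1, h0, h2⟩ := den_bounds hx hn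
  obtain ⟨e1, e2⟩ := abs_err_le hx hn
  have hq : (1 : ℝ) ≤ den x n := by exact_mod_cast h1
  have hi : 1 / (den x n : ℝ) ≤ den x n :=
    ((div_le_one (zero_lt_one.trans_le hq)).2 hq).trans hq
  constructor
  · have h := abs_sub_abs_le_abs_sub (num x n : ℝ) (den x n * x)
    rw [abs_sub_comm, abs_mul, abs_of_pos (zero_lt_one.trans_le hq)] at h
    simp only [err] at e1
    linarith
  · have h := abs_sub_abs_le_abs_sub (numPrev x n : ℝ) (denPrev x n * x)
    have hq' : (0 : ℝ) ≤ denPrev x n := by exact_mod_cast h0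
    have hle : (denPrev x n : ℝ) * |x| ≤ den x n * |x| :=
      mul_le_mul_of_nonneg_right (by exact_mod_cast h2) (abs_nonneg x)
    rw [abs_sub_comm, abs_mul, abs_of_nonneg hq'] at h
    simp only [errPrev] at e2
    linarith

/-- Bounded digits give exponentially bounded denominators. -/
theorem den_le_pow (hx : Irrational x) {M : ℤ} (hM : 0 ≤ M) (hd : ∀ n, digit x (n + 1) ≤ M) :
    ∀ n, 1 ≤ n → den x n ≤ (M + 1) ^ n := by
  intro n hn
  induction n, hn using Nat.le_induction with
  | base =>
    rw [pow_one, show den x 1 = 1 by simp [den, contin]]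
    omega
  | succ n hn ih =>
    obtain ⟨h1, h0, h2⟩ := den_bounds hx hn
    obtain ⟨m, rfl⟩ : ∃ m, n = m + 1 := ⟨n - 1, by omega⟩
    rw [den_succ, pow_succ]
    calc den x (m + 1) * digit x (m + 1) + denPrev x (m + 1)
        ≤ den x (m + 1) * M + den x (m + 1) :=
          add_le_add (mul_le_mul_of_nonneg_left (hd m) (by omega)) h2
      _ = den x (m + 1) * (M + 1) := by ring
      _ ≤ (M + 1) ^ (m + 1) * (M + 1) := mul_le_mul_of_nonneg_right ih (by omega)

/-- With bounded digits the ratios of denominators stay away from `0` and from `1`. -/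
theorem denPrev_bounds (hx : Irrational x) {M : ℤ} (hd : ∀ n, digit x (n + 1) ≤ M) {n : ℕ}
    (hn : 3 ≤ n) :
    den x n ≤ (M + 1) * denPrev x n ∧ (M + 2) * denPrev x n ≤ (M + 1) * den x n := by
  obtain ⟨k, rfl⟩ : ∃ k, n = k + 1 + 1 + 1 := ⟨n - 3, by omega⟩
  obtain ⟨a1, a0, a2⟩ := den_bounds hx (show 1 ≤ k + 1 by omega)
  obtain ⟨b1, b0, b2⟩ := den_bounds hx (show 1 ≤ k + 1 + 1 by omega)
  have hd1 := hd k
  have hd2 := hd (k + 1)
  have hu2 := one_le_digit hx (k + 1)
  have hu1 := one_le_digit hx k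
  rw [denPrev_succ] at b2 b0
  have hM : 1 ≤ M := le_trans hu1 hd1
  rw [denPrev_succ, den_succ (k + 1 + 1), denPrev_succ]
  have e : den x (k + 1 + 1) ≤ den x (k + 1) * (M + 1) := by
    rw [den_succ, mul_add, mul_one]
    exact add_le_add (mul_le_mul_of_nonneg_left hd1 (by omega)) a2
  constructor
  · nlinarith
  · show (M + 2) * den x (k + 1 + 1) ≤ _
    have := mul_le_mul_of_nonneg_left hu2
      (show (0 : ℤ) ≤ (M + 1) * den x (k + 1 + 1) from mul_nonneg (by omega) (by omega))
    linarith

/-- Equal digits bring the complete quotients together. -/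
theorem abs_sub_le_of_digit {u v : ℝ} (hu : Irrational u) (hv : Irrational v) :
    ∀ j : ℕ, (∀ t, t ≤ 2 * j → digit u t = digit v t) → |u - v| * 4 ^ j ≤ 1 := by
  intro j
  induction j generalizing u v with
  | zero =>
    intro h
    rw [pow_zero, mul_one]
    exact (Int.abs_sub_lt_one_of_floor_eq_floor (h 0 le_rfl)).le
  | succ j ih =>
    intro h
    have hstep : ∀ {u v : ℝ}, Irrational u → Irrational v → digit u 0 = digit v 0 →
        |u - v| * (cq u 1 * cq v 1) = |cq u 1 - cq v 1| := fun {u v} hu hv h0 => by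
      have a := zero_lt_one.trans (one_lt_cq hu 0)
      have b := zero_lt_one.trans (one_lt_cq hv 0)
      rw [show u - v = 1 / cq u 1 - 1 / cq v 1 by
        have e1 := cq_eq u 0
        have e2 := cq_eq v 0
        rw [show cq u 0 = u from rfl] at e1
        rw [show cq v 0 = v from rfl, ← h0] at e2
        simp only [zero_add] at e1 e2
        linarith, div_sub_div _ _ a.ne' b.ne', abs_div, abs_of_pos (mul_pos a b),
        div_mul_cancel₀ _ (mul_pos a b).ne', one_mul, mul_one, abs_sub_comm]
    have h0 := h 0 (Nat.zero_le _)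
    have h1 : digit (cq u 1) 0 = digit (cq v 1) 0 := h 1 (by omega)
    have h2 : ∀ t, t ≤ 2 * j → digit (cq u 2) t = digit (cq v 2) t := fun t ht => by
      rw [digit, digit, ← cq_add, ← cq_add]
      exact h (2 + t) (by omega)
    have e1 := hstep hu hv h0
    have e2 := hstep (irrational_cq hu 1) (irrational_cq hv 1) h1
    rw [← cq_add, ← cq_add] at e2
    have htwo : ∀ {w : ℝ}, Irrational w → 2 ≤ cq w 1 * cq w 2 := fun {w} hw => by
      have h2 := one_lt_cq hw 1
      rw [cq_eq w 1, add_mul, one_div_mul_cancel (zero_lt_one.trans h2).ne']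
      have : (1 : ℝ) ≤ digit w 1 := by exact_mod_cast one_le_digit hw 0
      nlinarith
    have hI := ih (irrational_cq hu 2) (irrational_cq hv 2) h2
    refine le_trans ?_ hI
    rw [← e2, ← e1, pow_succ]
    have h4 : (4 : ℝ) ≤ (cq u 1 * cq u (1 + 1)) * (cq v 1 * cq v (1 + 1)) := by
      nlinarith [htwo hu, htwo hv]
    calc |u - v| * (4 ^ j * 4) = |u - v| * 4 ^ j * 4 := by ring
      _ ≤ |u - v| * 4 ^ j * ((cq u 1 * cq u (1 + 1)) * (cq v 1 * cq v (1 + 1))) :=
          mul_le_mul_of_nonneg_left h4 (by positivity)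
      _ = _ := by ring

/-- The quotients before equal windows. -/
theorem abs_cq_sub_le (hx : Irrational x) {r N m : ℕ}
    (h : ∀ t, t < m → digit x (r + t) = digit x (N + t)) (hm : 1 ≤ m) :
    |cq x N - cq x r| ≤ 4 * (1 / 2) ^ m := by
  have hj := abs_sub_le_of_digit (irrational_cq hx N) (irrational_cq hx r) ((m - 1) / 2)
    fun t ht => by
      rw [digit, digit, ← cq_add, ← cq_add]
      exact (h t (by omega)).symm
  have h4 : (2 : ℝ) ^ m ≤ 4 * 4 ^ ((m - 1) / 2) := by
    rw [show (4 : ℝ) = 2 ^ 2 by norm_num, ← pow_mul, ← pow_add]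
    exact pow_le_pow_right₀ one_le_two (by omega)
  rw [div_pow, one_pow, mul_one_div, le_div_iff₀ (by positivity)]
  calc |cq x N - cq x r| * 2 ^ m ≤ |cq x N - cq x r| * (4 * 4 ^ ((m - 1) / 2)) :=
        mul_le_mul_of_nonneg_left h4 (abs_nonneg _)
    _ = 4 * (|cq x N - cq x r| * 4 ^ ((m - 1) / 2)) := by ring
    _ ≤ 4 * 1 := mul_le_mul_of_nonneg_left hj (by norm_num)
    _ = 4 := mul_one 4

end FA.StammeringFractions

end
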