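import Fermat.Agent.DigitComplexity.Complexity
import Fermat.Agent.StammeringFractions.Windows

/-!
# Bugeaud's theorem on automatic continued fractions

For a repeated window `r < N` the vector of the coefficients of the quadratic form of the period is
a small solution for three linear forms. A fixed relation forces the number to be quadratic when
`r` grows; for fixed `r` two relations between the continuants at `N` do.
-/

set_option autoImplicit false

noncomputable section

namespace FA.StammeringFractions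

open Finset Matrix FA.PeriodicFractions FA.Subspace FA.Perfect

variable {x : ℝ}

/-- Powers of a fixed base do not spoil geometric decay. -/
theorem exists_decay {K B : ℝ} (hK : 1 ≤ K) (hB : 1 ≤ B) (D : ℕ) (K' : ℝ) :
    ∃ δ : ℝ, 0 < δ ∧ ∃ M₀ : ℕ, ∀ m, M₀ ≤ m → ∀ X : ℝ, 0 < X → X ≤ K * B ^ (D * m) →
      K' * (1 / 2) ^ m < X ^ (-δ) := by
  have hl : 0 < Real.log 2 := Real.log_pos one_lt_two
  have hlB : 0 ≤ Real.log B := Real.log_nonneg hB
  set δ := Real.log 2 / (2 * (D * Real.log B + 1))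
  have hδ : 0 < δ := by positivity
  obtain ⟨M₀, hM₀⟩ := exists_nat_gt (2 * (δ * Real.log K + Real.log (max K' 1)) / Real.log 2)
  refine ⟨δ, hδ, M₀, fun m hm X hX hXB => ?_⟩
  have hm' := hM₀.trans_le (Nat.cast_le.2 hm)
  rw [div_lt_iff₀ hl] at hm'
  have h1 := Real.log_le_log hX hXB
  rw [Real.log_mul (by positivity) (pow_pos (zero_lt_one.trans_le hB) _).ne', Real.log_pow] at h1
  have h2 := mul_le_mul_of_nonneg_left h1 hδ.le
  have h3 : δ * (D * Real.log B) * m ≤ Real.log 2 / 2 * m := by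
    refine mul_le_mul_of_nonneg_right ?_ (Nat.cast_nonneg m)
    rw [div_mul_eq_mul_div, div_le_iff₀ (by positivity)]
    linarith [mul_nonneg hl.le (mul_nonneg (Nat.cast_nonneg (α := ℝ) D) hlB)]
  refine lt_of_le_of_lt (mul_le_mul_of_nonneg_right (le_max_left K' 1) (by positivity)) ?_
  rw [← Real.log_lt_log_iff (by positivity) (Real.rpow_pos_of_pos hX _), Real.log_rpow hX,
    Real.log_mul (by positivity) (by positivity), Real.log_pow, one_div, Real.log_inv]
  push_cast at h2
  linarith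

/-- The index of the repeated window stays below `C m`. -/
structure IsWindow (x : ℝ) (C m r N : ℕ) : Prop where
  one_le : 1 ≤ r
  lt : r < N
  le : N ≤ C * m
  eq : ∀ t, t < m → digit x (r + t) = digit x (N + t)
  left : r = 1 ∨ digit x (r - 1) ≠ digit x (N - 1)

/-- A repetition extends to the left until the digits differ. -/
theorem exists_window {C m i j : ℕ} (hi : 1 ≤ i) (hij : i < j) (hjC : j ≤ C * m)
    (h : ∀ t, t < m → digit x (i + t) = digit x (j + t)) :
    ∃ r N, IsWindow x C m r N := by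
  classical
  let P : ℕ → Prop := fun r =>
    1 ≤ r ∧ r ≤ i ∧ ∀ t, r ≤ t → t < i + m → digit x t = digit x (t + (j - i))
  have hex : ∃ r, P r := ⟨i, hi, le_rfl, fun t ht1 ht2 => by
    obtain ⟨u, rfl⟩ := Nat.exists_eq_add_of_le ht1
    rw [h u (by omega), show i + u + (j - i) = j + u by omega]⟩
  obtain ⟨h1, h2, h3⟩ := Nat.find_spec hex
  refine ⟨Nat.find hex, Nat.find hex + (j - i), h1, by omega, by omega, fun t ht => ?_,
    or_iff_not_imp_left.2 fun hne e => ?_⟩
  · rw [h3 _ (Nat.le_add_right _ _) (by omega)]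
    congr 1
    omega
  · refine Nat.find_min hex (show Nat.find hex - 1 < Nat.find hex by omega) ⟨by omega, by omega,
      fun t ht1 ht2 => ?_⟩
    rcases eq_or_lt_of_le ht1 with rfl | hlt
    · rw [e]
      congr 1
      omega
    · exact h3 t (by omega) ht2

theorem int_quad_eq_zero (hx : Irrational x) (hnq : ¬IsQuadraticIrrational x) {a b c : ℤ}
    (h : (a : ℝ) + b * x + c * x ^ 2 = 0) : a = 0 ∧ b = 0 ∧ c = 0 := by
  by_cases hc : c = 0
  · subst hc
    by_cases hb : b = 0
    · subst hb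
      exact ⟨by simpa using h, rfl, rfl⟩
    · refine absurd ?_ (hx.ne_rational (-a) b)
      rw [eq_div_iff (Int.cast_ne_zero.2 hb)]
      push_cast
      simp only [Int.cast_zero, zero_mul, add_zero] at h
      linarith
  · exact absurd ⟨hx, c, b, a, hc, by linarith⟩ hnq

/-! ### The coefficients of the form of a period -/

/-- The leading coefficient. -/
def coefA (x : ℝ) (r N : ℕ) : ℤ := denPrev x r * den x N - den x r * denPrev x N

/-- The first middle coefficient. -/
def coefB (x : ℝ) (r N : ℕ) : ℤ := denPrev x r * num x N - den x r * numPrev x N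

/-- The second middle coefficient. -/
def coefB' (x : ℝ) (r N : ℕ) : ℤ := numPrev x r * den x N - num x r * denPrev x N

/-- The constant coefficient. -/
def coefC (x : ℝ) (r N : ℕ) : ℤ := numPrev x r * num x N - num x r * numPrev x N

/-- The value of the form at `x`. -/
theorem form_eq (hx : Irrational x) (r N : ℕ) :
    x ^ 2 * coefA x r N - x * (coefB x r N + coefB' x r N) + coefC x r N =
      err x r * err x N * (cq x N - cq x r) := by
  have h1 := errPrev_eq hx r
  have h2 := errPrev_eq hx N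
  simp only [coefA, coefB, coefB', coefC, err, errPrev] at h1 h2 ⊢
  push_cast
  linear_combination ((den x N : ℝ) * x - num x N) * h1 - ((den x r : ℝ) * x - num x r) * h2

theorem coef_bounds (hx : Irrational x) {r N : ℕ} (hr : 1 ≤ r) (hN : 1 ≤ N) :
    |x * coefA x r N - coefB x r N| ≤ 2 * den x r / den x N ∧
      |x * coefA x r N - coefB' x r N| ≤ 2 * den x N / den x r ∧
      |(coefA x r N : ℝ)| ≤ den x r * den x N := by
  obtain ⟨r1, r0, r2⟩ := den_bounds hx hr
  obtain ⟨n1, n0, n2⟩ := den_bounds hx hN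
  obtain ⟨er, er'⟩ := abs_err_le hx hr
  obtain ⟨en, en'⟩ := abs_err_le hx hN
  have hr0 : (0 : ℝ) ≤ denPrev x r := by exact_mod_cast r0
  have hn0 : (0 : ℝ) ≤ denPrev x N := by exact_mod_cast n0
  have hr2 : (denPrev x r : ℝ) ≤ den x r := by exact_mod_cast r2
  have hn2 : (denPrev x N : ℝ) ≤ den x N := by exact_mod_cast n2
  have hqr : (0 : ℝ) ≤ den x r := by exact_mod_cast (show 0 ≤ den x r by omega)
  have hqn : (0 : ℝ) ≤ den x N := by exact_mod_cast (show 0 ≤ den x N by omega)
  refine ⟨?_, ?_, ?_⟩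
  · rw [show x * coefA x r N - coefB x r N =
      (denPrev x r : ℝ) * err x N - den x r * errPrev x N by
        simp only [coefA, coefB, err, errPrev]; push_cast; ring]
    refine (abs_sub _ _).trans ?_
    rw [abs_mul, abs_mul, abs_of_nonneg hr0, abs_of_nonneg hqr, two_mul, add_div,
      ← mul_one_div (den x r : ℝ)]
    exact add_le_add (mul_le_mul hr2 en (abs_nonneg _) hqr) (mul_le_mul_of_nonneg_left en' hqr)
  · rw [show x * coefA x r N - coefB' x r N =
      errPrev x r * den x N - err x r * denPrev x N by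
        simp only [coefA, coefB', err, errPrev]; push_cast; ring]
    refine (abs_sub _ _).trans ?_
    rw [abs_mul, abs_mul, abs_of_nonneg hn0, abs_of_nonneg hqn, two_mul, add_div,
      ← one_div_mul_eq_div, mul_comm (1 / (den x r : ℝ))]
    refine add_le_add ?_ ?_
    · rw [mul_comm]; exact mul_le_mul_of_nonneg_left er' hqn
    · rw [mul_comm]; exact mul_le_mul hn2 er (abs_nonneg _) hqn
  · simp only [coefA]
    push_cast
    rw [abs_le]
    constructor
    · nlinarith [mul_le_mul_of_nonneg_left hn2 hqr, mul_nonneg hr0 hqn]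
    · nlinarith [mul_le_mul_of_nonneg_right hr2 hqn, mul_nonneg hqr hn0]

/-- The sizes of the coefficients. -/
theorem coef_size (hx : Irrational x) {r N : ℕ} (hr : 1 ≤ r) (hN : 1 ≤ N) {a : ℤ}
    (ha : a = coefA x r N ∨ a = coefB x r N ∨ a = coefB' x r N ∨ a = coefC x r N) :
    |(a : ℝ)| ≤ 2 * (|x| + 1) ^ 2 * den x r * den x N := by
  obtain ⟨r1, r0, r2⟩ := den_bounds hx hr
  obtain ⟨n1, n0, n2⟩ := den_bounds hx hN
  set K := |x| + 1
  have hK : 1 ≤ K := le_add_of_nonneg_left (abs_nonneg x)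
  have bd : ∀ k, 1 ≤ k → |(den x k : ℝ)| ≤ K * den x k ∧ |(denPrev x k : ℝ)| ≤ K * den x k ∧
      |(num x k : ℝ)| ≤ K * den x k ∧ |(numPrev x k : ℝ)| ≤ K * den x k := fun k hk => by
    obtain ⟨k1, k0, k2⟩ := den_bounds hx hk
    have h0 : (0 : ℝ) ≤ den x k := by exact_mod_cast (show 0 ≤ den x k by omega)
    have h0' : (0 : ℝ) ≤ denPrev x k := by exact_mod_cast k0
    rw [abs_of_nonneg h0, abs_of_nonneg h0']
    exact ⟨le_mul_of_one_le_left h0 hK,
      le_trans (by exact_mod_cast k2) (le_mul_of_one_le_left h0 hK), abs_num_le hx hk⟩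
  obtain ⟨br1, br2, br3, br4⟩ := bd r hr
  obtain ⟨bn1, bn2, bn3, bn4⟩ := bd N hN
  have key : ∀ u v w z : ℝ, |u| ≤ K * den x r → |w| ≤ K * den x r → |v| ≤ K * den x N →
      |z| ≤ K * den x N → |u * v - w * z| ≤ 2 * K ^ 2 * den x r * den x N :=
    fun u v w z hu hw hv hz => by
      refine (abs_sub _ _).trans ?_
      rw [abs_mul, abs_mul]
      refine (add_le_add (mul_le_mul hu hv (abs_nonneg _) ((abs_nonneg _).trans hu))
        (mul_le_mul hw hz (abs_nonneg _) ((abs_nonneg _).trans hw))).trans_eq ?_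
      ring
  rcases ha with rfl | rfl | rfl | rfl <;> simp only [coefA, coefB, coefB', coefC] <;> push_cast
  · exact key _ _ _ _ br2 br1 bn1 bn2
  · exact key _ _ _ _ br2 br1 bn3 bn4
  · exact key _ _ _ _ br4 br3 bn1 bn2
  · exact key _ _ _ _ br4 br3 bn3 bn4

/-- The leading coefficient is large when the digits before the windows differ. -/
theorem coefA_large (hx : Irrational x) {M : ℤ} (hd : ∀ n, digit x (n + 1) ≤ M) {r N : ℕ}
    (hr : 4 ≤ r) (hN : r < N) (hne : digit x (r - 1) ≠ digit x (N - 1)) :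
    (den x r : ℝ) * den x N ≤ ((M : ℝ) + 1) ^ 2 * (M + 2) * |(coefA x r N : ℝ)| := by
  obtain ⟨a, rfl⟩ : ∃ a, r = a + 1 := ⟨r - 1, by omega⟩
  obtain ⟨b, rfl⟩ : ∃ b, N = b + 1 := ⟨N - 1, by omega⟩
  rw [Nat.add_sub_cancel, Nat.add_sub_cancel] at hne
  obtain ⟨a1, a2⟩ := denPrev_bounds hx hd (show 3 ≤ a by omega)
  obtain ⟨b1, b2⟩ := denPrev_bounds hx hd (show 3 ≤ b by omega)
  obtain ⟨c1, -⟩ := denPrev_bounds hx hd (show 3 ≤ a + 1 by omega)
  obtain ⟨d1, -⟩ := denPrev_bounds hx hd (show 3 ≤ b + 1 by omega)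
  obtain ⟨q1, q0, q2⟩ := den_bounds hx (show 1 ≤ a by omega)
  obtain ⟨w1, w0, w2⟩ := den_bounds hx (show 1 ≤ b by omega)
  have hM : 1 ≤ M := (one_le_digit hx 0).trans (hd 0)
  rw [denPrev_succ] at c1 d1
  set u := den x a
  set v := den x b
  -- the integer margin
  have key : u * v ≤ (M + 2) * |coefA x (a + 1) (b + 1)| := by
    have e : coefA x (a + 1) (b + 1) = u * v * (digit x b - digit x a) +
        (u * denPrev x b - v * denPrev x a) := by
      simp only [coefA, den_succ, denPrev_succ, u, v]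
      ring
    rw [e]
    have ha0 : (M + 1) * (v * denPrev x a) ≥ v * u := by
      rw [mul_left_comm]; exact mul_le_mul_of_nonneg_left a1 (by omega)
    have hb0 : (M + 1) * (u * denPrev x b) ≥ u * v := by
      rw [mul_left_comm]; exact mul_le_mul_of_nonneg_left b1 (by omega)
    have ha3 : (M + 2) * (v * denPrev x a) ≤ (M + 1) * (v * u) := by
      have := mul_le_mul_of_nonneg_left a2 (show (0 : ℤ) ≤ v by omega)
      linarith
    have hb3 : (M + 2) * (u * denPrev x b) ≤ (M + 1) * (u * v) := by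
      have := mul_le_mul_of_nonneg_left b2 (show (0 : ℤ) ≤ u by omega)
      linarith
    have hn1 : 0 ≤ v * denPrev x a := mul_nonneg (by omega) q0
    have hn2 : 0 ≤ u * denPrev x b := mul_nonneg (by omega) w0
    have huv : 0 ≤ u * v := mul_nonneg (by omega) (by omega)
    rcases lt_or_gt_of_ne hne with h | h
    · have h1 := mul_le_mul_of_nonneg_left (show 1 ≤ digit x b - digit x a by omega) huv
      refine le_trans ?_ (mul_le_mul_of_nonneg_left (le_abs_self _) (by omega))
      have h2 := mul_le_mul_of_nonneg_left h1 (show 0 ≤ M + 2 by omega)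
      nlinarith
    · have h1 := mul_le_mul_of_nonneg_left (show 1 ≤ digit x a - digit x b by omega) huv
      refine le_trans ?_ (mul_le_mul_of_nonneg_left (neg_le_abs _) (by omega))
      have h2 := mul_le_mul_of_nonneg_left h1 (show 0 ≤ M + 2 by omega)
      nlinarith
  have h : den x (a + 1) * den x (b + 1) ≤
      (M + 1) ^ 2 * (M + 2) * |coefA x (a + 1) (b + 1)| := by
    calc den x (a + 1) * den x (b + 1) ≤ (M + 1) * u * ((M + 1) * v) :=
          mul_le_mul c1 d1 (by have := (den_bounds hx (show 1 ≤ b + 1 by omega)).1; omega)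
            (mul_nonneg (by omega) (by omega))
      _ = (M + 1) ^ 2 * (u * v) := by ring
      _ ≤ (M + 1) ^ 2 * ((M + 2) * |coefA x (a + 1) (b + 1)|) :=
          mul_le_mul_of_nonneg_left key (sq_nonneg _)
      _ = _ := by ring
  exact_mod_cast h

/-- A quantity below `L / den` along an unbounded set vanishes. -/
theorem eq_zero_of_le_div_den (hx : Irrational x) {E : Set ℕ} {f : ℕ → ℕ}
    (hf : ∀ R, ∃ m ∈ E, R ≤ f m) {z L : ℝ} (h : ∀ m ∈ E, |z| ≤ L / den x (f m)) : z = 0 := by
  by_contra hz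
  obtain ⟨R, hR⟩ := exists_nat_gt (L / |z|)
  obtain ⟨m, hm, hmR⟩ := hf (R + 2)
  obtain ⟨k, hk⟩ : ∃ k, f m = k + 1 := ⟨f m - 1, by omega⟩
  have h1 : ((R : ℤ) : ℝ) ≤ den x (f m) := by
    rw [hk]
    exact Int.cast_le.2 (le_trans (Nat.cast_le.2 (show R ≤ k by omega))
      (PalindromicFractions.le_contin_den hx k))
  have h2 : (1 : ℝ) ≤ den x (f m) := by
    exact_mod_cast (den_bounds hx (show 1 ≤ f m by omega)).1
  rw [div_lt_iff₀ (abs_pos.2 hz)] at hR
  have h3 := h m hm
  rw [le_div_iff₀ (zero_lt_one.trans_le h2)] at h3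
  push_cast at h1
  nlinarith [mul_le_mul_of_nonneg_left h1 (abs_nonneg z)]

/-- **The windows move to the right**: then `x` is not algebraic unless it is quadratic. -/
theorem false_of_moving (hx : Irrational x) (halg : IsAlgebraic ℚ x)
    (hnq : ¬IsQuadraticIrrational x) {M : ℤ} (hd : ∀ n, digit x (n + 1) ≤ M) {C : ℕ} {E : Set ℕ}
    (hE : E.Infinite) {r N : ℕ → ℕ} (hw : ∀ m ∈ E, IsWindow x C m (r m) (N m))
    (hr : ∀ R, {m ∈ E | r m ≤ R}.Finite) : False := by
  classical
  have hM : 1 ≤ M := (one_le_digit hx 0).trans (hd 0)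
  set B : ℝ := (M : ℝ) + 1
  have hB : 1 ≤ B := le_add_of_nonneg_left (Int.cast_nonneg (by omega))
  set K := 2 * (|x| + 1) ^ 2
  have hK : 1 ≤ K := by
    have : (1 : ℝ) ≤ (|x| + 1) ^ 2 := one_le_pow₀ (le_add_of_nonneg_left (abs_nonneg x))
    linarith
  obtain ⟨δ, hδ, M₀, hdec⟩ := exists_decay hK hB (2 * C) 16
  set E₀ := {m ∈ E | M₀ + 1 ≤ m ∧ 4 ≤ r m}
  have hE₀ : E₀.Infinite := fun hfin => hE (((hfin.union (hr 3)).union
    (Set.finite_Iic M₀)).subset fun m hm => by
      by_cases h1 : 4 ≤ r m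
      · by_cases h2 : M₀ + 1 ≤ m
        · exact Or.inl (Or.inl ⟨hm, h2, h1⟩)
        · exact Or.inr (Set.mem_Iic.2 (by omega))
      · exact Or.inl (Or.inr ⟨hm, by omega⟩))
  have hunb : ∀ {E' : Set ℕ}, E'.Infinite → E' ⊆ E → ∀ R, ∃ m ∈ E', R ≤ r m :=
    fun {E'} hE' hsub R => by
      by_contra! h
      exact hE' ((hr R).subset fun m hm => ⟨hsub hm, (h m hm).le⟩)
  -- the estimates at one window
  have est : ∀ m ∈ E₀,
      let qr : ℝ := den x (r m)
      let qn : ℝ := den x (N m)
      1 ≤ qr ∧ qr ≤ qn ∧ qr * qn ≤ B ^ 2 * (M + 2) * |(coefA x (r m) (N m) : ℝ)| ∧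
      qr * qn ≤ B ^ (2 * C * m) ∧
      |x ^ 2 * coefA x (r m) (N m) - x * (coefB x (r m) (N m) + coefB' x (r m) (N m)) +
        coefC x (r m) (N m)| ≤ 4 * (1 / 2) ^ m / (qr * qn) := by
    intro m hm qr qn
    obtain ⟨hmE, hm1, hr4⟩ := hm
    obtain ⟨w1, w2, w3, w4, w5⟩ := hw m hmE
    obtain ⟨b1, -, -⟩ := den_bounds hx w1
    obtain ⟨c1, -, -⟩ := den_bounds hx (show 1 ≤ N m by omega)
    have hqr : 1 ≤ qr := by simp only [qr]; exact_mod_cast b1
    have hqn : 1 ≤ qn := by simp only [qn]; exact_mod_cast c1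
    refine ⟨hqr, ?_, coefA_large hx hd hr4 w2 (w5.resolve_left (by omega)), ?_, ?_⟩
    · have hmono : ∀ j, den x (r m) ≤ den x (r m + j) := fun j => by
        induction j with
        | zero => exact le_rfl
        | succ j ih =>
          refine ih.trans ?_
          have := (den_bounds hx (show 1 ≤ r m + j + 1 by omega)).2.2
          rwa [denPrev_succ] at this
      have h := hmono (N m - r m)
      rw [Nat.add_sub_of_le w2.le] at h
      simp only [qr, qn]
      exact_mod_cast h
    · have hpow : ∀ k, 1 ≤ k → (den x k : ℝ) ≤ B ^ k := fun k hk => by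
        have h := den_le_pow hx (show 0 ≤ M by omega) hd k hk
        have h' : (den x k : ℝ) ≤ (((M + 1) ^ k : ℤ) : ℝ) := Int.cast_le.2 h
        simpa [B] using h'
      calc qr * qn ≤ B ^ r m * B ^ N m :=
            mul_le_mul (hpow _ w1) (hpow _ (by omega)) (by linarith) (by positivity)
        _ = B ^ (r m + N m) := (pow_add _ _ _).symm
        _ ≤ B ^ (2 * C * m) := pow_le_pow_right₀ hB (by rw [mul_assoc]; omega)
    · rw [form_eq hx, abs_mul, abs_mul]
      calc |err x (r m)| * |err x (N m)| * |cq x (N m) - cq x (r m)|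
          ≤ 1 / qr * (1 / qn) * (4 * (1 / 2) ^ m) :=
            mul_le_mul (mul_le_mul (abs_err_le hx w1).1 (abs_err_le hx (by omega)).1 (abs_nonneg _)
              (by positivity)) (abs_cq_sub_le hx w4 (by omega)) (abs_nonneg _) (by positivity)
        _ = 4 * (1 / 2) ^ m / (qr * qn) := by field_simp
  -- first application
  obtain ⟨z, hz, hzE⟩ := DigitComplexity.exists_infinite_hyperplane (n := 3) (by omega)
    (Places.none 4) (L := !![x ^ 2, -x, -x, 1; x, -1, 0, 0; x, 0, -1, 0; 1, 0, 0, 0])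
    (fun h0 => by
      obtain ⟨y, hy, hy0⟩ := exists_mulVec_eq_zero_iff.2 h0
      have e := fun i => congrFun hy0 i
      refine hy (funext fun i => ?_)
      have e0 := e 0
      have e1 := e 1
      have e2 := e 2
      have e3 := e 3
      simp [mulVec, dotProduct, Fin.sum_univ_succ] at e0 e1 e2 e3
      fin_cases i <;> simp_all)
    (fun i j => by
      fin_cases i <;> fin_cases j <;>
        simp [halg, halg.neg, halg.pow 2, isAlgebraic_one, isAlgebraic_zero, isAlgebraic_one.neg])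
    hδ hE₀ (fun m => ![coefA x (r m) (N m), coefB x (r m) (N m), coefB' x (r m) (N m),
      coefC x (r m) (N m)]) (fun _ l => l.elim0)
    (fun m hm h => by
      obtain ⟨hqr, hle, hA, -, -⟩ := est m hm
      have e : coefA x (r m) (N m) = 0 := by simpa using congrFun h 0
      rw [e, Int.cast_zero, abs_zero, mul_zero] at hA
      nlinarith)
    (fun m hm l => l.elim0)
    fun m hm => by
      obtain ⟨hqr, hle, hA, hX, hP⟩ := est m hm
      obtain ⟨w1, w2, -, -, -⟩ := hw m hm.1
      obtain ⟨h2, h3, h4⟩ := coef_bounds hx w1 (show 1 ≤ N m by omega)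
      set qr : ℝ := ((den x (r m) : ℤ) : ℝ)
      set qn : ℝ := ((den x (N m) : ℤ) : ℝ)
      set X := ‖castVec ![coefA x (r m) (N m), coefB x (r m) (N m), coefB' x (r m) (N m),
        coefC x (r m) (N m)]‖
      have hA0 : coefA x (r m) (N m) ≠ 0 := fun e => by
        rw [e, Int.cast_zero, abs_zero, mul_zero] at hA
        nlinarith
      have hX0 : 0 < X := norm_pos_iff.2 fun h =>
        hA0 (by simpa [castVec] using congrFun h 0)
      have hXK : X ≤ K * B ^ (2 * C * m) := by
        refine ((pi_norm_le_iff_of_nonneg (mul_nonneg (by linarith) (by positivity))).2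
          fun a => ?_)
        refine le_trans ?_ (mul_le_mul_of_nonneg_left hX (show (0 : ℝ) ≤ K by linarith))
        rw [← mul_assoc]
        have hs := fun {a : ℤ} => coef_size hx w1 (show 1 ≤ N m by omega) (a := a)
        fin_cases a <;> simp [castVec] <;> apply hs <;> simp
      have hlt := hdec m (Nat.le_of_succ_le hm.2.1) X hX0 hXK
      simp [Fin.prod_univ_succ, Fin.sum_univ_succ, Places.vol, ← sub_eq_add_neg]
      refine lt_of_le_of_lt ?_ hlt
      rw [show x ^ 2 * (coefA x (r m) (N m) : ℝ) + (-(x * coefB x (r m) (N m)) +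
          (-(x * coefB' x (r m) (N m)) + coefC x (r m) (N m))) =
        x ^ 2 * coefA x (r m) (N m) - x * (coefB x (r m) (N m) + coefB' x (r m) (N m)) +
          coefC x (r m) (N m) by ring]
      calc _ ≤ 4 * (1 / 2) ^ m / (qr * qn) * (2 * qr / qn * (2 * qn / qr * (qr * qn))) :=
            mul_le_mul hP (mul_le_mul h2 (mul_le_mul h3 h4 (abs_nonneg _)
              ((abs_nonneg _).trans h3)) (by positivity) ((abs_nonneg _).trans h2)) (by positivity)
              ((abs_nonneg _).trans hP)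
        _ = 16 * (1 / 2) ^ m := by
            have : (0 : ℝ) < qn := lt_of_lt_of_le (by linarith) hle
            field_simp
            ring
  set E₁ := {m ∈ E₀ | z ⬝ᵥ ![coefA x (r m) (N m), coefB x (r m) (N m), coefB' x (r m) (N m),
    coefC x (r m) (N m)] = 0}
  have hrel : ∀ m ∈ E₁, (z 0 : ℝ) * coefA x (r m) (N m) + z 1 * coefB x (r m) (N m) +
      z 2 * coefB' x (r m) (N m) + z 3 * coefC x (r m) (N m) = 0 := fun m hm => by
    have h := hm.2
    simp [dotProduct, Fin.sum_univ_succ, ← add_assoc] at h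
    exact_mod_cast h
  set ρ := (z 0 : ℝ) + (z 1 + z 2) * x + z 3 * x ^ 2
  set W := (|(z 1 : ℝ)| + |(z 2 : ℝ)| + |(z 3 : ℝ)| * (1 + 2 * |x|)) * 4
  have hρ : ρ = 0 := eq_zero_of_le_div_den hx (hunb hzE fun m hm => hm.1.1)
      (L := W * (B ^ 2 * (M + 2))) fun m hm => by
    obtain ⟨hqr, hle, hA, -, hP⟩ := est m hm.1
    obtain ⟨w1, w2, -, -, -⟩ := hw m hm.1.1
    obtain ⟨h2, h3, -⟩ := coef_bounds hx w1 (show 1 ≤ N m by omega)
    set qr : ℝ := ((den x (r m) : ℤ) : ℝ)
    set qn : ℝ := ((den x (N m) : ℤ) : ℝ)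
    set A : ℝ := ((coefA x (r m) (N m) : ℤ) : ℝ)
    have hq : 1 ≤ qn / qr := (one_le_div (by linarith)).2 hle
    have hP' : |x ^ 2 * A - x * (coefB x (r m) (N m) + coefB' x (r m) (N m)) +
        coefC x (r m) (N m)| ≤ 4 * (qn / qr) := by
      refine hP.trans ?_
      refine le_trans ?_ (le_mul_of_one_le_right (by norm_num) hq)
      rw [div_le_iff₀ (by nlinarith)]
      have : ((1 : ℝ) / 2) ^ m ≤ 1 := pow_le_one₀ (by norm_num) (by norm_num)
      nlinarith
    have h2' : |x * A - coefB x (r m) (N m)| ≤ 2 * (qn / qr) := by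
      refine h2.trans ?_
      rw [mul_div_assoc]
      refine mul_le_mul_of_nonneg_left (le_trans ?_ hq) zero_le_two
      exact (div_le_one (by linarith)).2 hle
    have h3' : |x * A - coefB' x (r m) (N m)| ≤ 2 * (qn / qr) := h3.trans_eq (mul_div_assoc _ _ _)
    have key : |ρ| * |A| ≤ W * (qn / qr) := by
      rw [← abs_mul, show ρ * A = z 1 * (x * A - coefB x (r m) (N m)) +
          z 2 * (x * A - coefB' x (r m) (N m)) +
          z 3 * (-(x ^ 2 * A - x * (coefB x (r m) (N m) + coefB' x (r m) (N m)) +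
            coefC x (r m) (N m)) + x * ((x * A - coefB x (r m) (N m)) +
            (x * A - coefB' x (r m) (N m)))) by
        simp only [ρ, A]; linear_combination hrel m hm]
      refine (abs_add_three _ _ _).trans ?_
      simp only [abs_mul, W]
      have h5 := (abs_add_le (-(x ^ 2 * A - x * (coefB x (r m) (N m) + coefB' x (r m) (N m)) +
        coefC x (r m) (N m))) (x * ((x * A - coefB x (r m) (N m)) +
          (x * A - coefB' x (r m) (N m))))).trans (add_le_add ((abs_neg _).trans_le hP')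
            ((abs_mul _ _).trans_le (mul_le_mul_of_nonneg_left
              ((abs_add_le _ _).trans (add_le_add h2' h3')) (abs_nonneg x))))
      have h6 := mul_le_mul_of_nonneg_left h5 (abs_nonneg (z 3 : ℝ))
      have h7 := mul_le_mul_of_nonneg_left h2' (abs_nonneg (z 1 : ℝ))
      have h8 := mul_le_mul_of_nonneg_left h3' (abs_nonneg (z 2 : ℝ))
      have h9 : 0 ≤ (|(z 1 : ℝ)| + |(z 2 : ℝ)|) * (qn / qr) := by positivity
      have h10 : 0 ≤ |(z 3 : ℝ)| * |x| * (qn / qr) := by positivity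
      linarith
    rw [le_div_iff₀ (by linarith : 0 < qr)]
    have hn : 0 < qn := by linarith
    refine le_of_mul_le_mul_right ?_ hn
    calc |ρ| * qr * qn = |ρ| * (qr * qn) := by ring
      _ ≤ |ρ| * (B ^ 2 * (M + 2) * |A|) := mul_le_mul_of_nonneg_left hA (abs_nonneg _)
      _ = B ^ 2 * (M + 2) * (|ρ| * |A|) := by ring
      _ ≤ B ^ 2 * (M + 2) * (W * (qn / qr)) := mul_le_mul_of_nonneg_left key
          (mul_nonneg (sq_nonneg _) (by exact_mod_cast (show 0 ≤ M + 2 by omega)))
      _ ≤ B ^ 2 * (M + 2) * (W * qn) := by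
          refine mul_le_mul_of_nonneg_left (mul_le_mul_of_nonneg_left
            (div_le_self hn.le hqr) (by positivity))
            (mul_nonneg (sq_nonneg _) (by exact_mod_cast (show 0 ≤ M + 2 by omega)))
      _ = W * (B ^ 2 * (M + 2)) * qn := by ring
  obtain ⟨z0, z12, z3⟩ := int_quad_eq_zero hx hnq (a := z 0) (b := z 1 + z 2) (c := z 3)
    (by push_cast; exact hρ)
  have hz1 : z 1 ≠ 0 := fun e => hz (funext fun i => by fin_cases i <;> simp_all)
  -- so the middle coefficients agree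
  have hBB : ∀ m ∈ E₁, coefB' x (r m) (N m) = coefB x (r m) (N m) := fun m hm => by
    have h := hm.2
    simp [dotProduct, Fin.sum_univ_succ, z0, z3] at h
    rw [show z 2 = -z 1 by omega] at h
    exact mul_left_cancel₀ hz1 (by linarith)
  obtain ⟨δ', hδ', M₁, hdec'⟩ := exists_decay hK hB (2 * C) 8
  have hE₂ : {m ∈ E₁ | M₁ ≤ m}.Infinite := fun hfin => hzE ((hfin.union
    (Set.finite_Iio M₁)).subset fun m hm => (le_or_gt M₁ m).imp (fun h => ⟨hm, h⟩) id)
  obtain ⟨w, hw', hwE⟩ := DigitComplexity.exists_infinite_hyperplane (n := 2) one_le_two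
    (Places.none 3) (L := !![x ^ 2, -(2 * x), 1; x, -1, 0; 1, 0, 0])
    (by simp [det_fin_three]) (fun i j => by
      fin_cases i <;> fin_cases j <;>
        simp [halg, halg.pow 2, show IsAlgebraic ℚ (-(2 * x)) from ((isAlgebraic_natCast 2).mul halg).neg,
          isAlgebraic_one, isAlgebraic_zero, isAlgebraic_one.neg])
    hδ' hE₂ (fun m => ![coefA x (r m) (N m), coefB x (r m) (N m), coefC x (r m) (N m)])
    (fun _ l => l.elim0)
    (fun m hm h => by
      obtain ⟨hqr, hle, hA, -, -⟩ := est m hm.1.1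
      have e : coefA x (r m) (N m) = 0 := by simpa using congrFun h 0
      rw [e, Int.cast_zero, abs_zero, mul_zero] at hA
      nlinarith)
    (fun m hm l => l.elim0)
    fun m hm => by
      obtain ⟨hqr, hle, hA, hX, hP⟩ := est m hm.1.1
      obtain ⟨w1, w2, -, -, -⟩ := hw m hm.1.1.1
      obtain ⟨h2, h3, h4⟩ := coef_bounds hx w1 (show 1 ≤ N m by omega)
      rw [hBB m hm.1] at hP
      set qr : ℝ := ((den x (r m) : ℤ) : ℝ)
      set qn : ℝ := ((den x (N m) : ℤ) : ℝ)
      set X := ‖castVec ![coefA x (r m) (N m), coefB x (r m) (N m), coefC x (r m) (N m)]‖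
      have hA0 : coefA x (r m) (N m) ≠ 0 := fun e => by
        rw [e, Int.cast_zero, abs_zero, mul_zero] at hA
        nlinarith
      have hX0 : 0 < X := norm_pos_iff.2 fun h => hA0 (by simpa [castVec] using congrFun h 0)
      have hXK : X ≤ K * B ^ (2 * C * m) := by
        refine ((pi_norm_le_iff_of_nonneg (mul_nonneg (by linarith) (by positivity))).2
          fun a => ?_)
        refine le_trans ?_ (mul_le_mul_of_nonneg_left hX (show (0 : ℝ) ≤ K by linarith))
        rw [← mul_assoc]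
        have hs := fun {a : ℤ} => coef_size hx w1 (show 1 ≤ N m by omega) (a := a)
        fin_cases a <;> simp [castVec] <;> apply hs <;> simp
      have hlt := hdec' m hm.2 X hX0 hXK
      simp [Fin.prod_univ_succ, Fin.sum_univ_succ, Places.vol, ← sub_eq_add_neg]
      refine lt_of_le_of_lt ?_ hlt
      rw [show x ^ 2 * (coefA x (r m) (N m) : ℝ) +
          (-(2 * x * coefB x (r m) (N m)) + coefC x (r m) (N m)) =
        x ^ 2 * coefA x (r m) (N m) - x * (coefB x (r m) (N m) + coefB x (r m) (N m)) +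
          coefC x (r m) (N m) by ring]
      calc _ ≤ 4 * (1 / 2) ^ m / (qr * qn) * (2 * qr / qn * (qr * qn)) :=
            mul_le_mul hP (mul_le_mul h2 h4 (abs_nonneg _) ((abs_nonneg _).trans h2)) (by positivity)
              ((abs_nonneg _).trans hP)
        _ = 8 * (1 / 2) ^ m * (qr / qn) := by
            have : (0 : ℝ) < qn := lt_of_lt_of_le (by linarith) hle
            field_simp
            ring
        _ ≤ 8 * (1 / 2) ^ m * 1 := mul_le_mul_of_nonneg_left
            ((div_le_one (by linarith)).2 hle) (by positivity)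
        _ = _ := mul_one _
  set σ := (w 0 : ℝ) + w 1 * x + w 2 * x ^ 2
  have hσ : σ = 0 := eq_zero_of_le_div_den hx (hunb hwE fun m hm => hm.1.1.1.1)
      (L := (|(w 1 : ℝ)| + |(w 2 : ℝ)| * (1 + |x|)) * 4 * (B ^ 2 * (M + 2))) fun m hm => by
    obtain ⟨hqr, hle, hA, -, hP⟩ := est m hm.1.1.1
    obtain ⟨w1, w2, -, -, -⟩ := hw m hm.1.1.1.1
    obtain ⟨h2, -, -⟩ := coef_bounds hx w1 (show 1 ≤ N m by omega)
    rw [hBB m hm.1.1] at hP
    have h := hm.2
    simp [dotProduct, Fin.sum_univ_succ, ← add_assoc] at h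
    have hR : (w 0 : ℝ) * coefA x (r m) (N m) + w 1 * coefB x (r m) (N m) +
        w 2 * coefC x (r m) (N m) = 0 := by exact_mod_cast h
    set qr : ℝ := ((den x (r m) : ℤ) : ℝ)
    set qn : ℝ := ((den x (N m) : ℤ) : ℝ)
    set A : ℝ := ((coefA x (r m) (N m) : ℤ) : ℝ)
    have hP' : |x ^ 2 * A - x * (coefB x (r m) (N m) + coefB x (r m) (N m)) +
        coefC x (r m) (N m)| ≤ 4 := by
      refine hP.trans ?_
      rw [div_le_iff₀ (by nlinarith)]
      have : ((1 : ℝ) / 2) ^ m ≤ 1 := pow_le_one₀ (by norm_num) (by norm_num)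
      nlinarith
    have h2' : |x * A - coefB x (r m) (N m)| ≤ 2 :=
      h2.trans ((div_le_iff₀ (by linarith)).2 (by linarith))
    have key : |σ| * |A| ≤ (|(w 1 : ℝ)| + |(w 2 : ℝ)| * (1 + |x|)) * 4 := by
      rw [← abs_mul, show σ * A = w 1 * (x * A - coefB x (r m) (N m)) +
          w 2 * (-(x ^ 2 * A - x * (coefB x (r m) (N m) + coefB x (r m) (N m)) +
            coefC x (r m) (N m)) + x * (2 * (x * A - coefB x (r m) (N m)))) by
        simp only [σ, A]; linear_combination hR]
      refine (abs_add_le _ _).trans ?_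
      simp only [abs_mul]
      have h5 := (abs_add_le (-(x ^ 2 * A - x * (coefB x (r m) (N m) + coefB x (r m) (N m)) +
        coefC x (r m) (N m))) (x * (2 * (x * A - coefB x (r m) (N m))))).trans
          (add_le_add ((abs_neg _).trans_le hP') ((abs_mul _ _).trans_le
            (mul_le_mul_of_nonneg_left ((abs_mul _ _).trans_le (show
              |(2 : ℝ)| * |x * A - coefB x (r m) (N m)| ≤ 2 * 2 by
              rw [abs_two]; exact mul_le_mul_of_nonneg_left h2' zero_le_two)) (abs_nonneg x))))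
      have h6 := mul_le_mul_of_nonneg_left h5 (abs_nonneg (w 2 : ℝ))
      have h7 := mul_le_mul_of_nonneg_left h2' (abs_nonneg (w 1 : ℝ))
      have h9 : 0 ≤ |(w 1 : ℝ)| := abs_nonneg _
      linarith
    rw [le_div_iff₀ (by linarith : 0 < qr)]
    calc |σ| * qr ≤ |σ| * (qr * qn) :=
          mul_le_mul_of_nonneg_left (le_mul_of_one_le_right (by linarith) (by linarith))
            (abs_nonneg _)
      _ ≤ |σ| * (B ^ 2 * (M + 2) * |A|) := mul_le_mul_of_nonneg_left hA (abs_nonneg _)
      _ = B ^ 2 * (M + 2) * (|σ| * |A|) := by ring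
      _ ≤ B ^ 2 * (M + 2) * ((|(w 1 : ℝ)| + |(w 2 : ℝ)| * (1 + |x|)) * 4) :=
          mul_le_mul_of_nonneg_left key
            (mul_nonneg (sq_nonneg _) (by exact_mod_cast (show 0 ≤ M + 2 by omega)))
      _ = _ := by ring
  obtain ⟨a0, a1, a2⟩ := int_quad_eq_zero hx hnq hσ
  exact hw' (funext fun i => by fin_cases i <;> assumption)

/-- A vector with entries bounded by the denominator at `N ≤ C m`. -/
theorem norm_le_pow (hx : Irrational x) {M : ℤ} (hd : ∀ n, digit x (n + 1) ≤ M) {N C m : ℕ}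
    (hN : 1 ≤ N) (hNC : N ≤ C * m) {k : ℕ} (y : Fin k → ℤ)
    (hy : ∀ i, |(y i : ℝ)| ≤ (|x| + 1) * den x N) :
    ‖castVec y‖ ≤ (|x| + 1) * ((M : ℝ) + 1) ^ (C * m) := by
  have hM : 1 ≤ M := (one_le_digit hx 0).trans (hd 0)
  have hB : (1 : ℝ) ≤ (M : ℝ) + 1 := le_add_of_nonneg_left (Int.cast_nonneg (by omega))
  have h := den_le_pow hx (show 0 ≤ M by omega) hd N hN
  have h' : (den x N : ℝ) ≤ (((M + 1) ^ N : ℤ) : ℝ) := Int.cast_le.2 h
  push_cast at h'
  refine (pi_norm_le_iff_of_nonneg (by positivity)).2 fun i => ?_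
  refine le_trans ?_ (mul_le_mul_of_nonneg_left (h'.trans (pow_le_pow_right₀ hB hNC))
    (by positivity))
  simpa [castVec] using hy i

/-- **The window stays put**: then `x` is periodic, or two relations at `N` make it quadratic. -/
theorem false_of_fixed (hx : Irrational x) (halg : IsAlgebraic ℚ x)
    (hnq : ¬IsQuadraticIrrational x) {M : ℤ} (hd : ∀ n, digit x (n + 1) ≤ M) {C r : ℕ} {E : Set ℕ}
    (hE : E.Infinite) {N : ℕ → ℕ} (hw : ∀ m ∈ E, IsWindow x C m r (N m)) : False := by
  classical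
  obtain ⟨m₀, hm₀⟩ := hE.nonempty
  have hr := (hw m₀ hm₀).one_le
  -- the windows do not stay
  have hN : ∀ R, {m ∈ E | N m ≤ R}.Finite := fun R => by
    by_contra hinf
    obtain ⟨N₀, hN₀⟩ : ∃ N₀, {m ∈ E | N m = N₀}.Infinite := by
      by_contra! h
      exact hinf (((Set.finite_Iic R).biUnion fun a _ => h a).subset fun m hm => by
        simp only [Set.mem_iUnion, exists_prop]
        exact ⟨N m, hm.2, hm.1, rfl⟩)
    obtain ⟨m₁, hm₁⟩ := hN₀.nonempty
    have hlt := (hw m₁ hm₁.1).lt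
    rw [hm₁.2] at hlt
    refine hnq (quadratic_of_periodic hx (N := r) (k := N₀ - r) (by omega) (cq_periodic hx
      fun n hn => ?_))
    obtain ⟨m, hm, hmn⟩ := hN₀.exists_gt n
    have h := (hw m hm.1).eq (n - r) (by omega)
    rw [hm.2, show r + (n - r) = n by omega] at h
    rw [h, show N₀ + (n - r) = n + (N₀ - r) by omega]
  set a := errPrev x r
  set b := err x r
  have hb : b ≠ 0 := err_ne_zero hx hr
  have ha : a ≠ 0 := by
    simp only [a, errPrev_eq hx]
    obtain ⟨r', rfl⟩ : ∃ r', r = r' + 1 := ⟨r - 1, by omega⟩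
    exact mul_ne_zero (neg_ne_zero.2 (zero_lt_one.trans (one_lt_cq hx r')).ne') hb
  have haA : IsAlgebraic ℚ a :=
    ((isAlgebraic_intCast _).mul halg).sub (isAlgebraic_intCast _)
  have hbA : IsAlgebraic ℚ b :=
    ((isAlgebraic_intCast _).mul halg).sub (isAlgebraic_intCast _)
  set B : ℝ := (M : ℝ) + 1
  have hM : 1 ≤ M := (one_le_digit hx 0).trans (hd 0)
  have hB : 1 ≤ B := le_add_of_nonneg_left (Int.cast_nonneg (by omega))
  obtain ⟨δ, hδ, M₀, hdec⟩ := exists_decay (le_add_of_nonneg_left (abs_nonneg x)) hB C (4 * |b|)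
  set E₀ := {m ∈ E | M₀ + 1 ≤ m}
  have hE₀ : E₀.Infinite := fun hfin => hE ((hfin.union (Set.finite_Iic M₀)).subset fun m hm => by
    by_cases h : M₀ + 1 ≤ m
    · exact Or.inl ⟨hm, h⟩
    · exact Or.inr (Set.mem_Iic.2 (by omega)))
  set Y : ℕ → Fin 4 → ℤ := fun m =>
    ![den x (N m), denPrev x (N m), num x (N m), numPrev x (N m)] with hY
  set FP : Fin 4 → ℝ := ![a * x, -(b * x), -a, b]
  set FL : Fin 4 → ℝ := ![0, x, 0, -1]
  have est : ∀ m ∈ E₀,
      let q : ℝ := den x (N m)
      1 ≤ q ∧ |∑ i, FP i * (Y m i : ℝ)| ≤ |b| * (4 * (1 / 2) ^ m) / q ∧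
      |∑ i, FL i * (Y m i : ℝ)| ≤ 1 / q ∧ (∀ i, |(Y m i : ℝ)| ≤ (|x| + 1) * q) ∧
      |(Y m 0 : ℝ)| ≤ q ∧ |(Y m 1 : ℝ)| ≤ q ∧ Y m 0 ≠ 0 := by
    intro m hm q
    obtain ⟨-, w2, -, w4, -⟩ := hw m hm.1
    have hN1 : 1 ≤ N m := by omega
    obtain ⟨n1, n0, n2⟩ := den_bounds hx hN1
    obtain ⟨e1, e2⟩ := abs_err_le hx hN1
    have hq : 1 ≤ q := by simp only [q]; exact_mod_cast n1
    have hq0 : |(den x (N m) : ℝ)| ≤ q := by rw [abs_of_pos (by linarith)]
    have hq1 : |(denPrev x (N m) : ℝ)| ≤ q := by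
      rw [abs_of_nonneg (by exact_mod_cast n0)]
      simp only [q]; exact_mod_cast n2
    refine ⟨hq, ?_, ?_, fun i => ?_, by simpa [hY] using hq0, by simpa [hY] using hq1,
      by simp [hY]; omega⟩
    · rw [show ∑ i, FP i * (Y m i : ℝ) = b * err x (N m) * (cq x (N m) - cq x r) by
        have h1 := errPrev_eq hx r
        have h2 := errPrev_eq hx (N m)
        simp only [errPrev, err] at h1 h2
        simp [Fin.sum_univ_succ, FP, hY, a, b, err, errPrev]
        linear_combination ((den x (N m) : ℝ) * x - num x (N m)) * h1 -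
          ((den x r : ℝ) * x - num x r) * h2, abs_mul, abs_mul]
      refine (mul_le_mul (mul_le_mul_of_nonneg_left e1 (abs_nonneg b))
        (abs_cq_sub_le hx w4 (by have := hm.2; omega)) (abs_nonneg _) (by positivity)).trans_eq ?_
      ring
    · rw [show ∑ i, FL i * (Y m i : ℝ) = errPrev x (N m) by
        simp [Fin.sum_univ_succ, FL, hY, errPrev]; ring]
      exact e2
    · have hle := le_mul_of_one_le_left (show 0 ≤ q by linarith)
        (le_add_of_nonneg_left (abs_nonneg x) : 1 ≤ |x| + 1)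
      obtain ⟨p1, p2⟩ := abs_num_le hx hN1
      fin_cases i <;> simp [hY]
      · exact hq0.trans hle
      · exact hq1.trans hle
      · exact p1
      · exact p2
  -- first relation
  obtain ⟨z, hz, hzE⟩ := DigitComplexity.exists_infinite_hyperplane (n := 3) (by omega)
    (Places.none 4) (L := Matrix.of ![FP, FL, Pi.single 0 1, Pi.single 1 1])
    (fun h0 => by
      obtain ⟨y, hy, hy0⟩ := exists_mulVec_eq_zero_iff.2 h0
      have e0 := congrFun hy0 0
      have e1 := congrFun hy0 1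
      have e2 := congrFun hy0 2
      have e3 := congrFun hy0 3
      simp [mulVec, dotProduct, Fin.sum_univ_succ, FP, FL, Pi.single_apply] at e0 e1 e2 e3
      refine hy (funext fun i => ?_)
      fin_cases i <;> simp_all)
    (fun i j => by
      fin_cases i <;> fin_cases j <;>
        simp [FP, FL, Pi.single_apply, halg, haA, hbA, haA.neg, haA.mul halg, (hbA.mul halg).neg,
          isAlgebraic_one, isAlgebraic_zero, isAlgebraic_one.neg])
    hδ hE₀ Y (fun _ l => l.elim0)
    (fun m hm h => (est m hm).2.2.2.2.2.2 (congrFun h 0)) (fun m hm l => l.elim0)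
    fun m hm => by
      obtain ⟨hq, hP, hL, hall, h0, h1, hne⟩ := est m hm
      set q : ℝ := ((den x (N m) : ℤ) : ℝ)
      have hlt := hdec m (by have := hm.2; omega) ‖castVec (Y m)‖
        (norm_pos_iff.2 fun h => hne (by simpa [castVec] using congrFun h 0))
        (norm_le_pow hx hd (by have := (hw m hm.1).lt; omega) (hw m hm.1).le _ hall)
      refine lt_of_le_of_lt ?_ (lt_of_lt_of_le hlt (by simp [Places.vol]))
      simp only [Fin.prod_univ_succ, Matrix.of_apply, Matrix.cons_val_succ, cons_val_zero,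
        Pi.single_apply, ite_mul, one_mul, zero_mul, sum_ite_eq', mem_univ, if_true,
        Fin.prod_univ_zero, mul_one]
      calc _ ≤ |b| * (4 * (1 / 2) ^ m) / q * (1 / q * (q * q)) :=
            mul_le_mul hP (mul_le_mul hL (mul_le_mul h0 h1 (abs_nonneg _) (by linarith))
              (by positivity) (by positivity)) (by positivity) (by positivity)
        _ = 4 * |b| * (1 / 2) ^ m := by field_simp
  -- second relation
  obtain ⟨k, hk⟩ := Function.ne_iff.1 hz
  obtain ⟨j, hj, hj01⟩ : ∃ j : Fin 4, (∀ y : Fin 4 → ℝ, ∑ i, (z i : ℝ) * y i = 0 →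
      ∑ i, FP i * y i = 0 → ∑ i, FL i * y i = 0 → y j = 0 → y = 0) ∧ (j = 0 ∨ j = 1) := by
    set u₁ := (z 0 : ℝ) + z 2 * x
    set u₂ := (z 1 : ℝ) + z 3 * x
    have hu : u₁ ≠ 0 ∨ u₂ ≠ 0 := by
      by_contra! h
      obtain ⟨a0, a2, -⟩ := int_quad_eq_zero hx hnq (a := z 0) (b := z 2) (c := 0)
        (by simpa [u₁] using h.1)
      obtain ⟨a1, a3, -⟩ := int_quad_eq_zero hx hnq (a := z 1) (b := z 3) (c := 0)
        (by simpa [u₂] using h.2)
      exact hz (funext fun i => by fin_cases i <;> assumption)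
    have sol : ∀ y : Fin 4 → ℝ, ∑ i, (z i : ℝ) * y i = 0 → ∑ i, FP i * y i = 0 →
        ∑ i, FL i * y i = 0 → y 2 = x * y 0 ∧ y 3 = x * y 1 ∧ u₁ * y 0 + u₂ * y 1 = 0 :=
      fun y h1 h2 h3 => by
        simp [Fin.sum_univ_succ, FP, FL] at h1 h2 h3
        have e3 : y 3 = x * y 1 := by linarith
        have e2 : a * (x * y 0 - y 2) = 0 := by rw [e3] at h2; linarith
        have e2' := (mul_eq_zero.1 e2).resolve_left ha
        refine ⟨by linarith, e3, ?_⟩
        simp only [u₁, u₂]
        rw [e3, show y 2 = x * y 0 by linarith] at h1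
        linarith
    rcases hu with hu | hu
    · refine ⟨1, fun y h1 h2 h3 h4 => ?_, Or.inr rfl⟩
      obtain ⟨f2, f3, f⟩ := sol y h1 h2 h3
      rw [h4, mul_zero, add_zero] at f
      have h0 := (mul_eq_zero.1 f).resolve_left hu
      rw [h0, mul_zero] at f2
      rw [h4, mul_zero] at f3
      exact funext fun i => by fin_cases i <;> assumption
    · refine ⟨0, fun y h1 h2 h3 h4 => ?_, Or.inl rfl⟩
      obtain ⟨f2, f3, f⟩ := sol y h1 h2 h3
      rw [h4, mul_zero, zero_add] at f
      have h0 := (mul_eq_zero.1 f).resolve_left hu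
      rw [h4, mul_zero] at f2
      rw [h0, mul_zero] at f3
      exact funext fun i => by fin_cases i <;> assumption
  set G : Fin 3 → Fin 4 → ℝ := ![FP, FL, Pi.single j 1]
  set L' : Matrix (Fin 3) (Fin 3) ℝ := Matrix.of fun i l =>
    G i (k.succAbove l) - G i k * z (k.succAbove l) / z k
  have hk' : (z k : ℝ) ≠ 0 := Int.cast_ne_zero.2 hk
  have hL' : ∀ (i : Fin 3) (y : Fin 4 → ℝ), ∑ l, (z l : ℝ) * y l = 0 →
      ∑ l, L' i l * y (k.succAbove l) = ∑ l, G i l * y l := fun i y hy => by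
    rw [Fin.sum_univ_succAbove _ k] at hy
    rw [Fin.sum_univ_succAbove (fun l => G i l * y l) k,
      show ∑ l, L' i l * y (k.succAbove l) = ∑ l, G i (k.succAbove l) * y (k.succAbove l) -
        G i k / z k * ∑ l, (z (k.succAbove l) : ℝ) * y (k.succAbove l) by
      rw [mul_sum, ← sum_sub_distrib]
      exact sum_congr rfl fun l _ => by simp only [L', Matrix.of_apply]; ring,
      show ∑ l, (z (k.succAbove l) : ℝ) * y (k.succAbove l) = -((z k : ℝ) * y k) by linarith]
    field_simp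
    ring
  obtain ⟨δ', hδ', M₁, hdec'⟩ := exists_decay (le_add_of_nonneg_left (abs_nonneg x)) hB C
    (4 * |b|)
  set E₁ := {m ∈ E₀ | z ⬝ᵥ Y m = 0}
  have hzY : ∀ m ∈ E₁, ∑ l, (z l : ℝ) * (Y m l : ℝ) = 0 := fun m hm => by
    have h := hm.2
    rw [dotProduct] at h
    exact_mod_cast h
  have hE₂ : {m ∈ E₁ | M₁ ≤ m}.Infinite := fun hfin => hzE ((hfin.union
    (Set.finite_Iio M₁)).subset fun m hm => (le_or_gt M₁ m).imp (fun h => ⟨hm, h⟩) id)
  have hGA : ∀ i l, IsAlgebraic ℚ (G i l) := fun i l => by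
    fin_cases i <;> fin_cases l <;> rcases hj01 with rfl | rfl <;>
      simp [G, FP, FL, Pi.single_apply, halg, haA, hbA, haA.neg, haA.mul halg, (hbA.mul halg).neg,
        isAlgebraic_one, isAlgebraic_zero, isAlgebraic_one.neg]
  obtain ⟨w, hw', hwE⟩ := DigitComplexity.exists_infinite_hyperplane (n := 2) one_le_two
    (Places.none 3) (L := L')
    (fun h0 => by
      obtain ⟨y, hy, hy0⟩ := exists_mulVec_eq_zero_iff.2 h0
      set y₄ : Fin 4 → ℝ :=
        Fin.insertNth k (-(∑ l, (z (k.succAbove l) : ℝ) * y l) / z k) y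
      have hk₄ : ∀ l, y₄ (k.succAbove l) = y l := fun l => Fin.insertNth_apply_succAbove ..
      have hzy : ∑ l, (z l : ℝ) * y₄ l = 0 := by
        rw [Fin.sum_univ_succAbove _ k]
        simp only [hk₄]
        simp only [y₄, Fin.insertNth_apply_same]
        field_simp
        ring
      have hG : ∀ i, ∑ l, G i l * y₄ l = 0 := fun i => by
        rw [← hL' i y₄ hzy]
        simp only [hk₄]
        exact congrFun hy0 i
      have h2 := hG 2
      simp [G, Pi.single_apply] at h2
      have h := hj y₄ hzy (by simpa [G] using hG 0) (by simpa [G] using hG 1) h2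
      exact hy (funext fun l => by rw [← hk₄, h]; rfl))
    (fun i l => (hGA i _).sub (((hGA i k).mul (isAlgebraic_intCast _)).mul
      (isAlgebraic_intCast _).inv))
    hδ' hE₂ (fun m l => Y m (k.succAbove l)) (fun _ l => l.elim0)
    (fun m hm h => by
      have hz' := hm.1.2
      rw [dotProduct, Fin.sum_univ_succAbove _ k] at hz'
      have h' : ∀ l, Y m (k.succAbove l) = 0 := fun l => congrFun h l
      simp only [h', mul_zero, sum_const_zero, add_zero, mul_eq_zero] at hz'
      refine (est m hm.1.1).2.2.2.2.2.2 ?_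
      rcases Fin.eq_self_or_eq_succAbove k 0 with e | ⟨l, e⟩
      · rw [e]; exact hz'.resolve_left hk
      · rw [e]; exact h' l)
    (fun m hm l => l.elim0)
    fun m hm => by
      obtain ⟨hq, hP, hL, hall, h0, h1, hne⟩ := est m hm.1.1
      set q : ℝ := ((den x (N m) : ℤ) : ℝ)
      have hy := hzY m hm.1
      have hne' : (fun l => Y m (k.succAbove l)) ≠ 0 := fun h => by
        have h' : ∀ l, (Y m (k.succAbove l) : ℝ) = 0 := fun l => by
          rw [show Y m (k.succAbove l) = 0 from congrFun h l]; simp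
        rw [Fin.sum_univ_succAbove _ k] at hy
        simp only [h', mul_zero, sum_const_zero, add_zero, mul_eq_zero, hk', false_or,
          Int.cast_eq_zero] at hy
        rcases Fin.eq_self_or_eq_succAbove k 0 with e | ⟨l, e⟩
        · exact hne (e ▸ hy)
        · exact hne (e ▸ (congrFun h l :))
      have hlt := hdec' m hm.2 ‖castVec fun l => Y m (k.succAbove l)‖
        (norm_pos_iff.2 fun h => hne' (funext fun l => by simpa [castVec] using congrFun h l))
        (norm_le_pow hx hd (by have := (hw m hm.1.1.1).lt; omega) (hw m hm.1.1.1).le _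
          fun l => hall _)
      refine lt_of_le_of_lt ?_ (lt_of_lt_of_le hlt (by simp [Places.vol]))
      simp only [hL' _ (fun l => (Y m l : ℝ)) hy, Fin.prod_univ_succ, Fin.prod_univ_zero, mul_one,
        G, cons_val_zero, Matrix.cons_val_succ, ← mul_assoc]
      have hj' : |(Y m j : ℝ)| ≤ q := by rcases hj01 with rfl | rfl <;> assumption
      calc _ ≤ |b| * (4 * (1 / 2) ^ m) / q * (1 / q) * q :=
            mul_le_mul (mul_le_mul hP hL (abs_nonneg _) (by positivity))
              (by simpa [Pi.single_apply] using hj') (abs_nonneg _) (by positivity)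
        _ = 4 * |b| * (1 / 2) ^ m * (1 / q) := by field_simp
        _ ≤ 4 * |b| * (1 / 2) ^ m * 1 := mul_le_mul_of_nonneg_left
            ((div_le_one (by linarith)).2 hq) (by positivity)
        _ = _ := mul_one _
  -- two relations at `N`
  set E₂ := {m ∈ {m ∈ E₁ | M₁ ≤ m} | w ⬝ᵥ (fun l => Y m (k.succAbove l)) = 0}
  set u : Fin 4 → ℤ := Fin.insertNth k 0 w
  have huY : ∀ m ∈ E₂, ∑ l, (u l : ℝ) * (Y m l : ℝ) = 0 := fun m hm => by
    have h := hm.2
    rw [dotProduct] at h
    rw [Fin.sum_univ_succAbove _ k]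
    simp only [u, Fin.insertNth_apply_same, Fin.insertNth_apply_succAbove, Int.cast_zero,
      zero_mul, zero_add]
    exact_mod_cast h
  have hNE : ∀ R, ∃ m ∈ E₂, R ≤ N m := fun R => by
    by_contra! h
    exact hwE ((hN R).subset fun m hm => ⟨hm.1.1.1.1, (h m hm).le⟩)
  set z₁ := (z 0 : ℝ) + z 2 * x
  set z₂ := (z 1 : ℝ) + z 3 * x
  set v₁ := (u 0 : ℝ) + u 2 * x
  set v₂ := (u 1 : ℝ) + u 3 * x
  have hD : z₁ * v₂ - z₂ * v₁ = 0 := eq_zero_of_le_div_den hx hNE
      (L := |v₂| * (|(z 2 : ℝ)| + |(z 3 : ℝ)|) + |z₂| * (|(u 2 : ℝ)| + |(u 3 : ℝ)|))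
      fun m hm => by
    obtain ⟨-, w2, -, -, -⟩ := hw m hm.1.1.1.1
    obtain ⟨n1, -, -⟩ := den_bounds hx (show 1 ≤ N m by omega)
    obtain ⟨e1, e2⟩ := abs_err_le hx (show 1 ≤ N m by omega)
    have h1 := hzY m hm.1.1
    have h2 := huY m hm
    simp [Fin.sum_univ_succ, hY] at h1 h2
    set q : ℝ := ((den x (N m) : ℤ) : ℝ)
    have hq : 1 ≤ q := by simp only [q]; exact_mod_cast n1
    have key : (z₁ * v₂ - z₂ * v₁) * q =
        v₂ * (z 2 * err x (N m) + z 3 * errPrev x (N m)) -
          z₂ * (u 2 * err x (N m) + u 3 * errPrev x (N m)) := by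
      simp only [z₁, z₂, v₁, v₂, err, errPrev, q]
      linear_combination ((u 1 : ℝ) + u 3 * x) * h1 - ((z 1 : ℝ) + z 3 * x) * h2
    refine le_trans (le_mul_of_one_le_right (abs_nonneg _) (show 1 ≤ |q| by
      rwa [abs_of_pos (by linarith)])) ?_
    rw [← abs_mul, key, add_div, mul_div_assoc, mul_div_assoc, add_div, add_div]
    refine (abs_sub _ _).trans (add_le_add ?_ ?_) <;> rw [abs_mul] <;>
      refine mul_le_mul_of_nonneg_left ((abs_add_le _ _).trans (add_le_add ?_ ?_)) (abs_nonneg _) <;>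
      rw [abs_mul, ← mul_one_div] <;>
      exact mul_le_mul_of_nonneg_left (by assumption) (abs_nonneg _)
  obtain ⟨hD0, -, -⟩ := int_quad_eq_zero hx hnq (a := z 0 * u 1 - z 1 * u 0)
    (b := z 0 * u 3 + z 2 * u 1 - z 1 * u 2 - z 3 * u 0) (c := z 2 * u 3 - z 3 * u 2)
    (by simp only [z₁, z₂, v₁, v₂] at hD; push_cast; linear_combination hD)
  obtain ⟨l₁, l₂, hl, f0, f1⟩ : ∃ l₁ l₂ : ℤ, (l₁ ≠ 0 ∨ l₂ ≠ 0) ∧
      l₁ * z 0 + l₂ * u 0 = 0 ∧
      l₁ * z 1 + l₂ * u 1 = 0 := by
    by_cases h : u 0 = 0 ∧ z 0 = 0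
    · by_cases h' : u 1 = 0 ∧ z 1 = 0
      · exact ⟨1, 0, Or.inl one_ne_zero, by simp [h.2], by simp [h'.2]⟩
      · exact ⟨u 1, -z 1, by by_contra! hc; exact h' ⟨hc.1, neg_eq_zero.1 hc.2⟩,
          by simp [h.1, h.2], by ring⟩
    · exact ⟨u 0, -z 0, by by_contra! hc; exact h ⟨hc.1, neg_eq_zero.1 hc.2⟩, by ring,
        by linarith⟩
  set t₂ := l₁ * z 2 + l₂ * u 2
  set t₃ := l₁ * z 3 + l₂ * u 3
  have ht : ¬(t₂ = 0 ∧ t₃ = 0) := fun h => by
    have hall : ∀ i, l₁ * z i + l₂ * u i = 0 := fun i => by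
      fin_cases i
      exacts [f0, f1, h.1, h.2]
    have hl1 : l₁ = 0 := by
      have h' := hall k
      simp only [u, Fin.insertNth_apply_same, mul_zero, add_zero] at h'
      exact (mul_eq_zero.1 h').resolve_right hk
    refine hw' (funext fun l => ?_)
    have h' := hall (k.succAbove l)
    simp only [u, Fin.insertNth_apply_succAbove, hl1, zero_mul, zero_add] at h'
    exact (mul_eq_zero.1 h').resolve_left (hl.resolve_left fun e => e hl1)
  obtain ⟨R, hR⟩ := exists_nat_gt ((|(t₃ : ℝ)| + 2) / |x|)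
  obtain ⟨m, hm, hmR⟩ := hNE (R + 2)
  have hN1 : 1 ≤ N m := by omega
  have hrel : t₂ * num x (N m) + t₃ * numPrev x (N m) = 0 := by
    have h1 := hzY m hm.1.1
    have h2 := huY m hm
    simp [Fin.sum_univ_succ, hY] at h1 h2
    have f0' : (l₁ : ℝ) * z 0 + l₂ * u 0 = 0 := by exact_mod_cast f0
    have f1' : (l₁ : ℝ) * z 1 + l₂ * u 1 = 0 := by exact_mod_cast f1
    have h : ((t₂ * num x (N m) + t₃ * numPrev x (N m) : ℤ) : ℝ) = 0 := by
      simp only [t₂, t₃]
      push_cast
      linear_combination (l₁ : ℝ) * h1 + (l₂ : ℝ) * h2 - (den x (N m) : ℝ) * f0' -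
        (denPrev x (N m) : ℝ) * f1'
    exact_mod_cast h
  have hco : IsCoprime (num x (N m)) (numPrev x (N m)) := by
    rcases abs_eq (zero_le_one' ℤ) |>.1 (det_eq hx (N m)) with h | h
    · exact ⟨denPrev x (N m), -den x (N m), by linarith⟩
    · exact ⟨-denPrev x (N m), den x (N m), by linarith⟩
  have hdvd : num x (N m) ∣ t₃ := hco.dvd_of_dvd_mul_right ⟨-t₂, by linarith⟩
  have hp : |(t₃ : ℝ)| + 1 < |(num x (N m) : ℝ)| := by
    obtain ⟨e1, -⟩ := abs_err_le hx hN1
    obtain ⟨k', hk''⟩ : ∃ k', N m = k' + 1 := ⟨N m - 1, by omega⟩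
    have hq : ((R : ℤ) : ℝ) ≤ den x (N m) := by
      rw [hk'']
      exact Int.cast_le.2 (le_trans (Nat.cast_le.2 (show R ≤ k' by omega))
        (PalindromicFractions.le_contin_den hx k'))
    push_cast at hq
    have hq1 : (1 : ℝ) ≤ den x (N m) := by exact_mod_cast (den_bounds hx hN1).1
    have hx0 : 0 < |x| := abs_pos.2 hx.ne_zero
    rw [div_lt_iff₀ hx0] at hR
    have h := abs_sub_abs_le_abs_sub ((den x (N m) : ℝ) * x) (num x (N m) : ℝ)
    rw [abs_mul, abs_of_pos (zero_lt_one.trans_le hq1)] at h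
    have h2 : 1 / (den x (N m) : ℝ) ≤ 1 := (div_le_one (by linarith)).2 hq1
    have h3 := mul_le_mul_of_nonneg_right hq hx0.le
    simp only [err] at e1
    linarith
  rcases eq_or_ne t₃ 0 with e | e
  · rw [e, zero_mul, add_zero, mul_eq_zero] at hrel
    have hp0 : num x (N m) = 0 := hrel.resolve_left fun h => ht ⟨h, e⟩
    rw [hp0, Int.cast_zero, abs_zero] at hp
    linarith [abs_nonneg (t₃ : ℝ)]
  · have := Int.le_of_dvd (abs_pos.2 e) ((dvd_abs _ _).2 ((abs_dvd _ _).2 hdvd))
    have h : |(num x (N m) : ℝ)| ≤ |(t₃ : ℝ)| := by exact_mod_cast this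
    linarith

/-- **Repetitions among the partial quotients.** -/
theorem quadratic_or_transcendental (hx : Irrational x) {M : ℤ} (hd : ∀ n, digit x (n + 1) ≤ M)
    {C : ℕ} (hrep : ∀ M₀, ∃ m i j, M₀ ≤ m ∧ i < j ∧ j ≤ C * m ∧
      ∀ t, t < m → digit x (i + t + 1) = digit x (j + t + 1)) :
    IsQuadraticIrrational x ∨ Transcendental ℚ x := by
  classical
  by_contra! h
  obtain ⟨hnq, hnt⟩ := h
  have halg : IsAlgebraic ℚ x := not_not.1 hnt
  set E := {m | ∃ r N, IsWindow x (C + 1) m r N}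
  have hE : E.Infinite := Set.infinite_of_forall_exists_gt fun R => by
    obtain ⟨m, i, j, hm, hij, hjC, h⟩ := hrep (R + 1)
    refine ⟨m, exists_window (i := i + 1) (j := j + 1) (by omega) (by omega)
      (by rw [add_mul, one_mul]; omega) fun t ht => ?_, by omega⟩
    rw [show i + 1 + t = i + t + 1 by omega, show j + 1 + t = j + t + 1 by omega]
    exact h t ht
  choose! r N hw using fun m (hm : m ∈ E) => hm
  by_cases hbd : ∃ R, {m ∈ E | r m ≤ R}.Infinite
  · obtain ⟨R, hR⟩ := hbd
    obtain ⟨r₀, hr₀⟩ : ∃ r₀, {m ∈ E | r m = r₀}.Infinite := by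
      by_contra! h
      exact hR (((Set.finite_Iic R).biUnion fun a _ => h a).subset fun m hm => by
        simp only [Set.mem_iUnion, exists_prop]
        exact ⟨r m, hm.2, hm.1, rfl⟩)
    exact false_of_fixed hx halg hnq hd hr₀ fun m hm => hm.2 ▸ hw m hm.1
  · push Not at hbd
    exact false_of_moving hx halg hnq hd hE hw hbd

end FA.StammeringFractions

end
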